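import Fermat.Agent.S18.RED.Defs
import Fermat.Agent.S28.AN.Assemble
import Fermat.Agent.S28.RedIndep

/-!
# S18 / RED, piece 1 (ANSEP), helper file (helper6106)

* `charpoly_Y_RN`, `charpoly_Yinv_RN`, `lagrange_RN`, `charpoly_J_RN`: the invariance statements over
  `RN N = ℤ[ζ_N, 1/N]` for the explicit index set `SL(2, ℤ) ⧸ Γ₀(N)` (same argument as in the landed
  `S28.exists_ANData`, plus the new `∏_u (X - J_{u,d})`);
* `Jcusp` has leading term `ζ_δ^(-b) t^(-M)`; for `d = N`: `M = a²`;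
* the pair `(a, b mod δ)` determines the coset `Γ₀(N) γ`;
* a ring hom `RN N →+* AlgebraicClosure K` whenever `(N : K) ≠ 0`; the image of `ζ_N` is a primitive
  `N`-th root of unity.
-/

set_option autoImplicit false

noncomputable section

namespace Fermat.Agent.S18.RED6106

open ModularCurve UpperHalfPlane Polynomial CongruenceSubgroup Fermat.Agent.S28
open scoped MatrixGroups Manifold

/-! ## Invariance statements over `RN N` -/

section RNLevel

variable (N : ℕ) [NeZero N] [Fintype (SL(2, ℤ) ⧸ Gamma0 N)]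

theorem charpoly_Y_RN :
    ∏ u : SL(2, ℤ) ⧸ Gamma0 N, (X - C (Ycusp N (cosetRep N u) : LaurentSeries (RN N))) ∈
      Polynomial.lifts ((Polynomial.aeval (R := RN N) (Fermat.Agent.S28.jt (RN N) N)).toRingHom) := by
  classical
  let sY : SL(2, ℤ) ⧸ Gamma0 N → texpSubring N := fun u =>
    ⟨(fun τ => yFun N (cosetRep N u • τ), coeffMap (RN N).subtype (Ycusp N (cosetRep N u))),
      mdiff_yFun_smul N (cosetRep N u), hasTExp_yFun_smul N (cosetRep N u)⟩
  rw [Polynomial.lifts_iff_coeff_lifts]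
  intro k
  refine mem_range_of_invariant N ((∏ u, (X - C (sY u))).coeff k) ?_ _ ?_
  · intro γ τ
    rw [← Polynomial.coeff_map, ← Polynomial.coeff_map]
    congr 1
    simp only [Polynomial.map_prod, Polynomial.map_sub, Polynomial.map_X, Polynomial.map_C]
    have e : ∀ u, texpEval N (γ • τ) (sY u) = texpEval N τ (sY ((MulAction.toPerm γ⁻¹) u)) :=
      fun u => yFun_cosetRep_smul N γ u τ
    simp only [e]
    exact prod_X_sub_C_comp (MulAction.toPerm γ⁻¹) (fun u => texpEval N τ (sY u))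
  · rw [← Polynomial.coeff_map, ← Polynomial.coeff_map]
    congr 1
    simp only [Polynomial.map_prod, Polynomial.map_sub, Polynomial.map_X, Polynomial.map_C]
    rfl

theorem charpoly_Yinv_RN :
    ∏ u : SL(2, ℤ) ⧸ Gamma0 N,
        (X - C (((Ycusp N (cosetRep N u))⁻¹ : (LaurentSeries (RN N))ˣ) : LaurentSeries (RN N))) ∈
      Polynomial.lifts ((Polynomial.aeval (R := RN N) (Fermat.Agent.S28.jt (RN N) N)).toRingHom) := by
  classical
  let sYi : SL(2, ℤ) ⧸ Gamma0 N → texpSubring N := fun u =>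
    ⟨(fun τ => (yFun N (cosetRep N u • τ))⁻¹, coeffMap (RN N).subtype
        (((Ycusp N (cosetRep N u))⁻¹ : (LaurentSeries (RN N))ˣ) : LaurentSeries (RN N))),
      mdiff_yFun_inv_smul N (cosetRep N u), hasTExp_yFun_inv_smul N (cosetRep N u)⟩
  rw [Polynomial.lifts_iff_coeff_lifts]
  intro k
  refine mem_range_of_invariant N ((∏ u, (X - C (sYi u))).coeff k) ?_ _ ?_
  · intro γ τ
    rw [← Polynomial.coeff_map, ← Polynomial.coeff_map]
    congr 1
    simp only [Polynomial.map_prod, Polynomial.map_sub, Polynomial.map_X, Polynomial.map_C]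
    have e : ∀ u, texpEval N (γ • τ) (sYi u) = texpEval N τ (sYi ((MulAction.toPerm γ⁻¹) u)) :=
      fun u => congrArg (·⁻¹) (yFun_cosetRep_smul N γ u τ)
    simp only [e]
    exact prod_X_sub_C_comp (MulAction.toPerm γ⁻¹) (fun u => texpEval N τ (sYi u))
  · rw [← Polynomial.coeff_map, ← Polynomial.coeff_map]
    congr 1
    simp only [Polynomial.map_prod, Polynomial.map_sub, Polynomial.map_X, Polynomial.map_C]
    rfl

theorem lagrange_RN [DecidableEq (SL(2, ℤ) ⧸ Gamma0 N)] (d : ℕ) (hd : d ∣ N) :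
    ∑ u : SL(2, ℤ) ⧸ Gamma0 N, C (Jcusp N (cosetRep N u) d) *
        ∏ u' ∈ Finset.univ.erase u, (X - C (Ycusp N (cosetRep N u') : LaurentSeries (RN N))) ∈
      Polynomial.lifts ((Polynomial.aeval (R := RN N) (Fermat.Agent.S28.jt (RN N) N)).toRingHom) := by
  have hpos : 0 < d := Nat.pos_of_ne_zero (ne_zero_of_dvd_ne_zero (NeZero.ne N) hd)
  let sY : SL(2, ℤ) ⧸ Gamma0 N → texpSubring N := fun u =>
    ⟨(fun τ => yFun N (cosetRep N u • τ), coeffMap (RN N).subtype (Ycusp N (cosetRep N u))),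
      mdiff_yFun_smul N (cosetRep N u), hasTExp_yFun_smul N (cosetRep N u)⟩
  let sJ : SL(2, ℤ) ⧸ Gamma0 N → texpSubring N := fun u =>
    ⟨(fun τ => jFun (scaleH d (cosetRep N u • τ)),
        coeffMap (RN N).subtype (Jcusp N (cosetRep N u) d)),
      mdiff_jFun_smul (cosetRep N u) d hpos, hasTExp_jFun_smul N (cosetRep N u) d hd⟩
  rw [Polynomial.lifts_iff_coeff_lifts]
  intro k
  refine mem_range_of_invariant N
    ((∑ u, C (sJ u) * ∏ u' ∈ Finset.univ.erase u, (X - C (sY u'))).coeff k) ?_ _ ?_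
  · intro γ τ
    rw [← Polynomial.coeff_map, ← Polynomial.coeff_map]
    congr 1
    simp only [Polynomial.map_sum, Polynomial.map_mul, Polynomial.map_prod, Polynomial.map_sub,
      Polynomial.map_X, Polynomial.map_C]
    have e : ∀ u, texpEval N (γ • τ) (sY u) = texpEval N τ (sY ((MulAction.toPerm γ⁻¹) u)) :=
      fun u => yFun_cosetRep_smul N γ u τ
    have e' : ∀ u, texpEval N (γ • τ) (sJ u) = texpEval N τ (sJ ((MulAction.toPerm γ⁻¹) u)) :=
      fun u => jFun_cosetRep_smul N γ u d hd τ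
    simp only [e, e']
    exact lagrange_sum_comp (MulAction.toPerm γ⁻¹) (fun u => texpEval N τ (sY u))
      (fun u => texpEval N τ (sJ u))
  · rw [← Polynomial.coeff_map, ← Polynomial.coeff_map]
    congr 1
    simp only [Polynomial.map_sum, Polynomial.map_mul, Polynomial.map_prod, Polynomial.map_sub,
      Polynomial.map_X, Polynomial.map_C]
    rfl

theorem charpoly_J_RN (d : ℕ) (hd : d ∣ N) :
    ∏ u : SL(2, ℤ) ⧸ Gamma0 N, (X - C (Jcusp N (cosetRep N u) d)) ∈
      Polynomial.lifts ((Polynomial.aeval (R := RN N) (Fermat.Agent.S28.jt (RN N) N)).toRingHom) := by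
  classical
  have hpos : 0 < d := Nat.pos_of_ne_zero (ne_zero_of_dvd_ne_zero (NeZero.ne N) hd)
  let sJ : SL(2, ℤ) ⧸ Gamma0 N → texpSubring N := fun u =>
    ⟨(fun τ => jFun (scaleH d (cosetRep N u • τ)),
        coeffMap (RN N).subtype (Jcusp N (cosetRep N u) d)),
      mdiff_jFun_smul (cosetRep N u) d hpos, hasTExp_jFun_smul N (cosetRep N u) d hd⟩
  rw [Polynomial.lifts_iff_coeff_lifts]
  intro k
  refine mem_range_of_invariant N ((∏ u, (X - C (sJ u))).coeff k) ?_ _ ?_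
  · intro γ τ
    rw [← Polynomial.coeff_map, ← Polynomial.coeff_map]
    congr 1
    simp only [Polynomial.map_prod, Polynomial.map_sub, Polynomial.map_X, Polynomial.map_C]
    have e' : ∀ u, texpEval N (γ • τ) (sJ u) = texpEval N τ (sJ ((MulAction.toPerm γ⁻¹) u)) :=
      fun u => jFun_cosetRep_smul N γ u d hd τ
    simp only [e']
    exact prod_X_sub_C_comp (MulAction.toPerm γ⁻¹) (fun u => texpEval N τ (sJ u))
  · rw [← Polynomial.coeff_map, ← Polynomial.coeff_map]
    congr 1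
    simp only [Polynomial.map_prod, Polynomial.map_sub, Polynomial.map_X, Polynomial.map_C]
    rfl

end RNLevel

/-! ## The leading term of `Jcusp` -/

section Leading

variable (N : ℕ) [NeZero N] (γ : SL(2, ℤ))

theorem order_jqModC (R : Type*) [CommRing R] [Nontrivial R] : (jqModC R).order = -1 := by
  refine laurent_order_eq_of_coeff ?_ ?_
  · rw [coeff_jqModC_neg_one]; exact one_ne_zero
  · intro n hn; exact coeff_jqModC_of_lt R hn

theorem Jcusp_coeff_of_lt {d : ℕ} (hd : d ∣ N) {n : ℤ} (hn : n < -(cuspM N γ d : ℤ)) :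
    (Jcusp N γ d).coeff n = 0 := by
  apply HahnSeries.coeff_eq_zero_of_lt_order
  rw [Jcusp, order_substHom _ _ (Fermat.Agent.S28.cuspM_pos N γ hd).ne', order_jqModC]
  linarith

theorem Jcusp_coeff_neg {d : ℕ} (hd : d ∣ N) :
    (Jcusp N γ d).coeff (-(cuspM N γ d : ℤ)) = (((cuspZ N γ d)⁻¹ : (RN N)ˣ) : RN N) := by
  have h := CL.substHom_coeff_mul (cuspZ N γ d) (Fermat.Agent.S28.cuspM_pos N γ hd)
    (jqModC (RN N)) (-1)
  rw [mul_neg_one, coeff_jqModC_neg_one, mul_one, zpow_neg_one] at h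
  exact h

/-- order and leading coefficient of the image of `Jcusp` under a ring hom to a field -/
theorem coeffMap_Jcusp_order {K' : Type*} [Field K'] (φ : RN N →+* K') {d : ℕ} (hd : d ∣ N) :
    (coeffMap φ (Jcusp N γ d)).order = -(cuspM N γ d : ℤ) := by
  refine laurent_order_eq_of_coeff ?_ ?_
  · rw [coeffMap_coeff, Jcusp_coeff_neg N γ hd]
    exact (((cuspZ N γ d)⁻¹ : (RN N)ˣ).isUnit.map φ).ne_zero
  · intro n hn
    rw [coeffMap_coeff, Jcusp_coeff_of_lt N γ hd hn, map_zero]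

theorem cuspM_self : cuspM N γ N = cuspA γ N * cuspA γ N := by
  have hN : 0 < N := Nat.pos_of_ne_zero (NeZero.ne N)
  have h1 : cuspA γ N * cuspDelta γ N = N := Fermat.Agent.S28.cuspA_mul_cuspDelta γ N
  have h2 : N / cuspDelta γ N = cuspA γ N :=
    Nat.div_eq_of_eq_mul_left (Fermat.Agent.S28.cuspDelta_pos γ hN) h1.symm
  rw [cuspM, h2]

theorem cuspZ_self : cuspZ N γ N = zetaU N ^ ((cuspA γ N : ℤ) * cuspB γ N) := by
  have hN : 0 < N := Nat.pos_of_ne_zero (NeZero.ne N)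
  have h1 : cuspA γ N * cuspDelta γ N = N := Fermat.Agent.S28.cuspA_mul_cuspDelta γ N
  have h2 : N / cuspDelta γ N = cuspA γ N :=
    Nat.div_eq_of_eq_mul_left (Fermat.Agent.S28.cuspDelta_pos γ hN) h1.symm
  rw [cuspZ, h2]

end Leading

/-! ## The pair `(a, b mod δ)` determines the coset -/

section Coset

variable (N : ℕ) [NeZero N]

theorem SL2_mul_inv_one_zero (γ γ' : SL(2, ℤ)) :
    (γ * γ'⁻¹) 1 0 = γ 1 0 * γ' 1 1 - γ 1 1 * γ' 1 0 := by
  rw [Matrix.SpecialLinearGroup.SL2_inv_expl γ']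
  simp [Matrix.SpecialLinearGroup.coe_mul, Matrix.mul_apply, Fin.sum_univ_two]
  ring

theorem coset_eq_of_cusp (u u' : SL(2, ℤ) ⧸ Gamma0 N)
    (ha : cuspA (cosetRep N u) N = cuspA (cosetRep N u') N)
    (hb : (cuspDelta (cosetRep N u) N : ℤ) ∣
      cuspB (cosetRep N u) N - cuspB (cosetRep N u') N) : u = u' := by
  have hN : 0 < N := Nat.pos_of_ne_zero (NeZero.ne N)
  set γ := cosetRep N u with hγ
  set γ' := cosetRep N u' with hγ'
  have hδ : cuspDelta γ N = cuspDelta γ' N := by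
    unfold cuspDelta
    rw [ha]
  have h1 := CL.cuspA_mul_cuspR γ N
  have h1' := CL.cuspA_mul_cuspR γ' N
  have h2 := CL.cuspS_spec γ hN
  have h2' := CL.cuspS_spec γ' hN
  have h3 : ((cuspA γ N : ℤ)) * (cuspDelta γ N : ℤ) = (N : ℤ) := by
    exact_mod_cast Fermat.Agent.S28.cuspA_mul_cuspDelta γ N
  obtain ⟨t, ht⟩ := hb
  rw [← ha] at h1'
  rw [← hδ] at h2'
  have hmem : γ * γ'⁻¹ ∈ Gamma0 N := by
    apply mem_Gamma0_of_dvd N
    rw [SL2_mul_inv_one_zero]
    refine ⟨CL.cuspR γ N * CL.cuspS γ' N - CL.cuspS γ N * CL.cuspR γ' N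
      - CL.cuspR γ N * CL.cuspR γ' N * t, ?_⟩
    have hb' : cuspB γ N = cuspB γ' N + (cuspDelta γ N : ℤ) * t := by linarith
    rw [← h3, ← h1, ← h1', ← h2, ← h2', hb']
    ring
  rw [← QuotientGroup.out_eq' u, ← QuotientGroup.out_eq' u']
  refine QuotientGroup.eq.mpr ?_
  have e : (Quotient.out u)⁻¹ * Quotient.out u' = γ * γ'⁻¹ := by
    rw [hγ, hγ']
    simp [cosetRep]
  rw [e]
  exact hmem

end Coset

/-! ## Ring homs from `RN N` to algebraically closed fields -/

section Hom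

variable (N : ℕ) [NeZero N]

/-- `ζ_N` as an element of `RN N` -/
def zetaR : RN N := ⟨zetaC N, zetaC_mem N⟩

/-- `1/N` as an element of `RN N` -/
def invNR : RN N := ⟨(N : ℂ)⁻¹, inv_natCast_mem N⟩

theorem invNR_mul : invNR N * (N : RN N) = 1 := by
  apply Subtype.ext
  show (N : ℂ)⁻¹ * ((N : RN N) : ℂ) = 1
  have hN : (N : ℂ) ≠ 0 := Nat.cast_ne_zero.mpr (NeZero.ne N)
  have : ((N : RN N) : ℂ) = (N : ℂ) := by simp
  rw [this, inv_mul_cancel₀ hN]

theorem zetaR_pow : zetaR N ^ N = 1 := Subtype.ext (zetaC_pow_self N)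

/-- a ring hom on `RN N` whose values at `ζ_N` and `1/N` lie in a subring takes all its values
in that subring -/
theorem map_mem_of_gens {S : Type*} [CommRing S] (π : RN N →+* S) (T : Subring S)
    (h1 : π (zetaR N) ∈ T) (h2 : π (invNR N) ∈ T) (r : RN N) : π r ∈ T := by
  obtain ⟨x, hx⟩ := r
  induction hx using Subring.closure_induction with
  | mem x hx =>
    rcases hx with rfl | hx
    · exact h1
    · have hx' : x = (N : ℂ)⁻¹ := hx
      subst hx'
      exact h2
  | zero => exact (map_zero π).symm ▸ zero_mem T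
  | one => exact (map_one π).symm ▸ one_mem T
  | add x y hx hy ihx ihy =>
    have : π ⟨x + y, add_mem hx hy⟩ = π ⟨x, hx⟩ + π ⟨y, hy⟩ := by rw [← map_add]; rfl
    rw [this]; exact add_mem ihx ihy
  | neg x hx ihx =>
    have : π ⟨-x, neg_mem hx⟩ = -π ⟨x, hx⟩ := by rw [← map_neg]; rfl
    rw [this]; exact neg_mem ihx
  | mul x y hx hy ihx ihy =>
    have : π ⟨x * y, mul_mem hx hy⟩ = π ⟨x, hx⟩ * π ⟨y, hy⟩ := by rw [← map_mul]; rfl
    rw [this]; exact mul_mem ihx ihy

theorem exists_hom_char_zero (Ω : Type*) [Field Ω] [IsAlgClosed Ω] [CharZero Ω] :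
    Nonempty (RN N →+* Ω) := by
  classical
  have hint : IsIntegral ℚ (zetaC N) :=
    ⟨X ^ N - 1, monic_X_pow_sub_C 1 (NeZero.ne N), by simp [zetaC_pow_self N]⟩
  let E : IntermediateField ℚ ℂ := IntermediateField.adjoin ℚ {zetaC N}
  haveI : Algebra.IsAlgebraic ℚ E := IntermediateField.isAlgebraic_adjoin_simple hint
  have hmem : ∀ r : RN N, (r : ℂ) ∈ E.toSubfield.toSubring := by
    intro r
    refine map_mem_of_gens N (RN N).subtype E.toSubfield.toSubring ?_ ?_ r
    · exact IntermediateField.mem_adjoin_simple_self ℚ (zetaC N)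
    · show (N : ℂ)⁻¹ ∈ E
      exact inv_mem (natCast_mem E N)
  let ι₀ : RN N →+* E := (RN N).subtype.codRestrict E.toSubfield.toSubring hmem
  exact ⟨((IsAlgClosed.lift : E →ₐ[ℚ] Ω) : E →+* Ω).comp ι₀⟩

theorem exists_hom_char_p (Ω : Type*) [Field Ω] [IsAlgClosed Ω] (p : ℕ) [Fact p.Prime] [CharP Ω p]
    (hpN : ¬ p ∣ N) : Nonempty (RN N →+* Ω) := by
  classical
  obtain ⟨k, _, _, ⟨π⟩⟩ := RedIndep.exists_residue p (RN N) (RN_integral N p Fact.out hpN)
  letI : Algebra (ZMod p) k := ZMod.algebra k p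
  letI : Algebra (ZMod p) Ω := ZMod.algebra Ω p
  have hint : IsIntegral (ZMod p) (π (zetaR N)) :=
    ⟨X ^ N - 1, monic_X_pow_sub_C 1 (NeZero.ne N), by
      simp [← map_pow, zetaR_pow N]⟩
  let E : IntermediateField (ZMod p) k := IntermediateField.adjoin (ZMod p) {π (zetaR N)}
  haveI : Algebra.IsAlgebraic (ZMod p) E := IntermediateField.isAlgebraic_adjoin_simple hint
  have hNk : (N : k) ≠ 0 := by
    rw [Ne, CharP.cast_eq_zero_iff k p]
    exact hpN
  have hmem : ∀ r : RN N, π r ∈ E.toSubfield.toSubring := by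
    intro r
    refine map_mem_of_gens N π E.toSubfield.toSubring ?_ ?_ r
    · exact IntermediateField.mem_adjoin_simple_self (ZMod p) (π (zetaR N))
    · show π (invNR N) ∈ E
      have h1 : π (invNR N) * (N : k) = 1 := by
        rw [← map_natCast π N, ← map_mul, invNR_mul, map_one]
      rw [eq_inv_of_mul_eq_one_left h1]
      exact inv_mem (natCast_mem E N)
  let ι₀ : RN N →+* E := π.codRestrict E.toSubfield.toSubring hmem
  exact ⟨((IsAlgClosed.lift : E →ₐ[ZMod p] Ω) : E →+* Ω).comp ι₀⟩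

theorem exists_hom (Ω : Type*) [Field Ω] [IsAlgClosed Ω] (hN : (N : Ω) ≠ 0) :
    Nonempty (RN N →+* Ω) := by
  obtain ⟨p, hp⟩ := CharP.exists Ω
  rcases CharP.char_is_prime_or_zero Ω p with hpp | rfl
  · haveI : Fact p.Prime := ⟨hpp⟩
    refine exists_hom_char_p N Ω p fun hdvd => hN ?_
    exact (CharP.cast_eq_zero_iff Ω p N).mpr hdvd
  · haveI : CharZero Ω := CharP.charP_to_charZero Ω
    exact exists_hom_char_zero N Ω

/-- the image of `ζ_N` is a primitive `N`-th root of unity -/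
theorem isPrimitiveRoot_map_zetaR {K' : Type*} [Field K'] (φ : RN N →+* K') (hN : (N : K') ≠ 0) :
    IsPrimitiveRoot (φ (zetaR N)) N := by
  haveI : NeZero (N : K') := ⟨hN⟩
  haveI : NeZero (N : ℂ) := ⟨Nat.cast_ne_zero.mpr (NeZero.ne N)⟩
  have h0 : IsPrimitiveRoot (zetaC N) N := Complex.isPrimitiveRoot_exp N (NeZero.ne N)
  have h1 : (cyclotomic N ℂ).IsRoot (zetaC N) := Polynomial.isRoot_cyclotomic_iff.mpr h0
  rw [← Polynomial.isRoot_cyclotomic_iff, ← Polynomial.map_cyclotomic_int N K',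
    Polynomial.IsRoot.def, Polynomial.eval_map]
  have h2 : Polynomial.eval₂ (Int.castRingHom (RN N)) (zetaR N) (cyclotomic N ℤ) = 0 := by
    apply Subtype.ext
    have h3 : ((Polynomial.eval₂ (Int.castRingHom (RN N)) (zetaR N) (cyclotomic N ℤ) : RN N) : ℂ)
        = Polynomial.eval₂ (Int.castRingHom ℂ) (zetaC N) (cyclotomic N ℤ) := by
      have := Polynomial.hom_eval₂ (cyclotomic N ℤ) (Int.castRingHom (RN N)) (RN N).subtype
        (zetaR N)
      rw [RingHom.ext_int ((RN N).subtype.comp (Int.castRingHom (RN N))) (Int.castRingHom ℂ)]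
        at this
      exact this
    rw [h3, ← Polynomial.eval_map, Polynomial.map_cyclotomic_int]
    exact h1
  have h4 := Polynomial.hom_eval₂ (cyclotomic N ℤ) (Int.castRingHom (RN N)) φ (zetaR N)
  rw [h2, map_zero, RingHom.ext_int (φ.comp (Int.castRingHom (RN N))) (Int.castRingHom K')] at h4
  exact h4.symm

end Hom

/-! ## Separation of the conjugates of `j(q^N)` -/

section Sep

variable (N : ℕ) [NeZero N]

theorem sep_J_map {K' : Type*} [Field K'] (φ : RN N →+* K') (hN : (N : K') ≠ 0)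
    (u u' : SL(2, ℤ) ⧸ Gamma0 N)
    (h : coeffMap φ (Jcusp N (cosetRep N u) N) = coeffMap φ (Jcusp N (cosetRep N u') N)) :
    u = u' := by
  have hN0 : 0 < N := Nat.pos_of_ne_zero (NeZero.ne N)
  set γ := cosetRep N u with hγ
  set γ' := cosetRep N u' with hγ'
  -- orders
  have ho := congrArg HahnSeries.order h
  rw [coeffMap_Jcusp_order N γ φ dvd_rfl, coeffMap_Jcusp_order N γ' φ dvd_rfl, cuspM_self,
    cuspM_self] at ho
  have ha : cuspA γ N = cuspA γ' N := by
    have h1 : ((cuspA γ N * cuspA γ N : ℕ) : ℤ) = ((cuspA γ' N * cuspA γ' N : ℕ) : ℤ) :=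
      neg_injective ho
    exact Nat.mul_self_inj.mp (by exact_mod_cast h1)
  have hM : cuspM N γ' N = cuspM N γ N := by rw [cuspM_self, cuspM_self, ha]
  -- leading coefficients
  have hc : φ (((cuspZ N γ N)⁻¹ : (RN N)ˣ) : RN N) = φ (((cuspZ N γ' N)⁻¹ : (RN N)ˣ) : RN N) := by
    have h1 := congrArg (fun x : LaurentSeries K' => x.coeff (-(cuspM N γ N : ℤ))) h
    simp only [coeffMap_coeff] at h1
    rw [Jcusp_coeff_neg N γ dvd_rfl] at h1
    have h2 := Jcusp_coeff_neg N γ' (d := N) dvd_rfl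
    rw [hM] at h2
    rw [h2] at h1
    exact h1
  let W : K'ˣ := Units.map (φ : RN N →* K') (zetaU N)
  have hW : IsPrimitiveRoot W N := by
    rw [← IsPrimitiveRoot.coe_units_iff]
    exact isPrimitiveRoot_map_zetaR N φ hN
  have hZ : ∀ g : SL(2, ℤ), Units.map (φ : RN N →* K') (cuspZ N g N)⁻¹ =
      W ^ (-((cuspA g N : ℤ) * cuspB g N)) := by
    intro g
    rw [cuspZ_self, map_inv, map_zpow, zpow_neg]
  have hc' : W ^ (-((cuspA γ N : ℤ) * cuspB γ N)) = W ^ (-((cuspA γ' N : ℤ) * cuspB γ' N)) := by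
    rw [← hZ, ← hZ]
    exact Units.ext hc
  have h1 : W ^ ((cuspA γ N : ℤ) * (cuspB γ N - cuspB γ' N)) = 1 := by
    have e : W ^ ((cuspA γ N : ℤ) * (cuspB γ N - cuspB γ' N)) =
        (W ^ (-((cuspA γ N : ℤ) * cuspB γ N)))⁻¹ * W ^ (-((cuspA γ' N : ℤ) * cuspB γ' N)) := by
      rw [← zpow_neg, ← zpow_add, ← ha]
      congr 1
      ring
    rw [e, hc', inv_mul_cancel]
  have h2 : (N : ℤ) ∣ (cuspA γ N : ℤ) * (cuspB γ N - cuspB γ' N) :=
    (hW.zpow_eq_one_iff_dvd _).mp h1
  have h3 : ((cuspA γ N : ℤ)) * (cuspDelta γ N : ℤ) = (N : ℤ) := by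
    exact_mod_cast Fermat.Agent.S28.cuspA_mul_cuspDelta γ N
  have ha0 : (cuspA γ N : ℤ) ≠ 0 := by
    exact_mod_cast (Fermat.Agent.S28.cuspA_pos γ hN0).ne'
  have hb : (cuspDelta γ N : ℤ) ∣ cuspB γ N - cuspB γ' N := by
    rw [← h3] at h2
    exact (mul_dvd_mul_iff_left ha0).mp h2
  exact coset_eq_of_cusp N u u' ha hb

end Sep

end Fermat.Agent.S18.RED6106
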